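import Fermat.Agent.LLp.Embedding.Main
import Fermat.Agent.LLp.Assembly

/-!
# `StmtEmbedding`
-/

set_option autoImplicit false

noncomputable section

namespace Fermat.Agent.LLp.Embedding

open ModularCurve WeierstrassCurve

/-- An irreducible residual representation of level `N` embeds in `J₀(N)[p]`. -/
theorem stmtEmbedding : StmtEmbedding := by
  intro W p _ hp2 hΔ hirr N _ hmod
  obtain ⟨ι, hι, hgal, -, hT⟩ := exists_embedding hΔ hp2 hirr hmod
  refine ⟨insert p (N.primeFactors ∪ W.Δ.natAbs.primeFactors), ι, hι,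
    fun σ P => (hgal σ P), fun ℓ hℓS P => ?_⟩
  simp only [Finset.mem_insert, Finset.mem_union, not_or, Nat.mem_primeFactors, not_and] at hℓS
  exact hT ℓ ℓ.2 (fun hd => hℓS.2.2 ℓ.2 (Int.natCast_dvd.mp hd) (Int.natAbs_ne_zero.mpr hΔ))
    (fun hd => hℓS.2.1 ℓ.2 hd (NeZero.ne N)) hℓS.1 P

end Fermat.Agent.LLp.Embedding
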