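import Mathlib.LinearAlgebra.Trace
import Mathlib.LinearAlgebra.Dual.Lemmas
import Mathlib.RingTheory.Finiteness.Basic
import Mathlib.LinearAlgebra.Basis.VectorSpace

/-!
# The lemma of Boston, Lenstra and Ribet

A nonzero representation each element of which satisfies the characteristic polynomial it has in a
two-dimensional representation `ρ` spanning all endomorphisms contains a copy of `ρ`.
-/

set_option autoImplicit false

namespace Fermat.Agent.LLp.Embedding

variable {F : Type*} [Field F]

section Null

variable {V : Type*} [AddCommGroup V] [Module F V]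

/-- Finitely many anticommuting operators of square zero have a common kernel. -/
theorem exists_common_kernel [Nontrivial V] (n : ℕ) (x : Fin n → Module.End F V)
    (hanti : ∀ i j, x i * x j = -(x j * x i)) (hsq : ∀ i, x i * x i = 0) :
    ∃ v : V, v ≠ 0 ∧ ∀ i, x i v = 0 := by
  induction n with
  | zero =>
    obtain ⟨v, hv⟩ := exists_ne (0 : V)
    exact ⟨v, hv, fun i => i.elim0⟩
  | succ n ih =>
    obtain ⟨v, hv, h⟩ := ih (fun i => x i.castSucc) (fun i j => hanti _ _) (fun i => hsq _)
    by_cases h0 : x (Fin.last n) v = 0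
    · exact ⟨v, hv, Fin.lastCases h0 h⟩
    · refine ⟨x (Fin.last n) v, h0, Fin.lastCases ?_ fun i => ?_⟩
      · rw [← Module.End.mul_apply, hsq, LinearMap.zero_apply]
      · rw [← Module.End.mul_apply, hanti, LinearMap.neg_apply, Module.End.mul_apply, h,
          map_zero, neg_zero]

end Null

variable {E V : Type*} [AddCommGroup E] [Module F E] [AddCommGroup V] [Module F V]
  {G : Type*} [Group G]

/-- The involution `x ↦ tr x - x` on the pairs reverses products. -/
theorem star_mul_star (r : G →* Module.End F (V)) (ρ : G →* Module.End F E) (d : G →* F)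
    (τ : Module.End F E →ₗ[F] F)
    (hr : ∀ g, d g • r g⁻¹ = τ (ρ g) • 1 - r g)
    {x y : Module.End F V × Module.End F E}
    (hx : x ∈ Submodule.span F (Set.range fun g => (r g, ρ g)))
    (hy : y ∈ Submodule.span F (Set.range fun g => (r g, ρ g))) :
    τ (x.2 * y.2) • (1 : Module.End F V) - x.1 * y.1 =
      (τ y.2 • 1 - y.1) * (τ x.2 • 1 - x.1) := by
  induction hx, hy using Submodule.span_induction₂ with
  | mem_mem a b ha hb =>
    obtain ⟨g, rfl⟩ := ha
    obtain ⟨h, rfl⟩ := hb
    dsimp only
    rw [← map_mul, ← map_mul, ← hr, ← hr, ← hr, map_mul d, mul_inv_rev, map_mul,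
      smul_mul_smul_comm, mul_comm (d h)]
  | zero_left b _ => simp
  | zero_right a _ => simp
  | add_left a b c _ _ _ h1 h2 =>
    simp only [Prod.fst_add, Prod.snd_add, add_mul, map_add, add_smul, add_sub_add_comm, h1, h2,
      mul_add]
  | add_right a b c _ _ _ h1 h2 =>
    simp only [Prod.fst_add, Prod.snd_add, mul_add, map_add, add_smul, add_sub_add_comm, h1, h2,
      add_mul]
  | smul_left c a b _ _ h1 =>
    simp only [Prod.smul_fst, Prod.smul_snd, smul_mul_assoc, map_smul, smul_eq_mul, mul_smul,
      ← smul_sub, h1, mul_smul_comm]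
  | smul_right c a b _ _ h1 =>
    simp only [Prod.smul_fst, Prod.smul_snd, mul_smul_comm, map_smul, smul_eq_mul, mul_smul,
      ← smul_sub, h1, smul_mul_assoc]

/-- A representation satisfying the quadratic relations of `ρ` contains a copy of `ρ`. -/
theorem exists_equivariant_injective [FiniteDimensional F E] [FiniteDimensional F V]
    [Nontrivial V] (h2 : (2 : F) ≠ 0) (ρ : G →* Module.End F E) (r : G →* Module.End F V)
    (d : G →* F) (τ : Module.End F E →ₗ[F] F)
    (hr : ∀ g, d g • r g⁻¹ = τ (ρ g) • 1 - r g)
    (hspan : Submodule.span F (Set.range ρ) = ⊤) :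
    ∃ ι : E →ₗ[F] V, Function.Injective ι ∧ ∀ g x, ι (ρ g x) = r g (ι x) := by
  classical
  set R : Submodule F (Module.End F V × Module.End F E) :=
    Submodule.span F (Set.range fun g => (r g, ρ g)) with hR
  have hmul : ∀ x ∈ R, ∀ y ∈ R, x * y ∈ R := by
    intro x hx y hy
    induction hx, hy using Submodule.span_induction₂ with
    | mem_mem a b ha hb =>
      obtain ⟨g, rfl⟩ := ha
      obtain ⟨h, rfl⟩ := hb
      exact Submodule.subset_span ⟨g * h, by simp⟩
    | zero_left b _ => simp
    | zero_right a _ => simp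
    | add_left a b c _ _ _ h1 h2 => rw [add_mul]; exact add_mem h1 h2
    | add_right a b c _ _ _ h1 h2 => rw [mul_add]; exact add_mem h1 h2
    | smul_left c a b _ _ h1 => rw [smul_mul_assoc]; exact R.smul_mem c h1
    | smul_right c a b _ _ h1 => rw [mul_smul_comm]; exact R.smul_mem c h1
  have hlift : ∀ f : Module.End F E, ∃ x : R, x.1.2 = f := by
    intro f
    have : R.map (LinearMap.snd F _ _) = ⊤ := by
      rw [hR, Submodule.map_span, ← Set.range_comp]
      exact hspan
    obtain ⟨x, hx, rfl⟩ := Submodule.mem_map.1 (this ▸ Submodule.mem_top : f ∈ R.map _)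
    exact ⟨⟨x, hx⟩, rfl⟩
  -- the kernel of the second projection
  set K : Submodule F (Module.End F V × Module.End F E) :=
    R ⊓ LinearMap.ker (LinearMap.snd F _ _) with hK
  have hanti : ∀ x ∈ K, ∀ y ∈ K, x.1 * y.1 = -(y.1 * x.1) := by
    rintro x ⟨hxR, hx⟩ y ⟨hyR, hy⟩
    have hx0 : x.2 = 0 := hx
    have hy0 : y.2 = 0 := hy
    have h := star_mul_star r ρ d τ hr hxR hyR
    simp only [hx0, hy0, mul_zero, map_zero, zero_smul, zero_sub, neg_mul_neg] at h
    rw [← h, neg_neg]
  have hsq : ∀ x ∈ K, x.1 * x.1 = 0 := fun x hx => by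
    have h := hanti x hx x hx
    rw [← sub_eq_zero, sub_neg_eq_add, ← two_smul F] at h
    exact (smul_eq_zero.1 h).resolve_left h2
  let b := Module.finBasis F K
  obtain ⟨v, hv, hbv⟩ := exists_common_kernel (V := V) _
    (fun i => ((b i : K) : Module.End F V × Module.End F E).1)
    (fun i j => hanti _ (b i).2 _ (b j).2) (fun i => hsq _ (b i).2)
  have hKv : ∀ x ∈ K, x.1 v = 0 := by
    intro x hx
    have h := congrArg (fun z : K => ((z : Module.End F V × Module.End F E).1) v)
      (b.sum_repr ⟨x, hx⟩)
    refine h.symm.trans ?_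
    rw [Submodule.coe_sum, Prod.fst_sum, LinearMap.sum_apply]
    refine Finset.sum_eq_zero fun i _ => ?_
    rw [Submodule.coe_smul, Prod.smul_fst, LinearMap.smul_apply, hbv, smul_zero]
  have hKR : ∀ x ∈ K, ∀ y ∈ R, x * y ∈ K := fun x hx y hy => ⟨hmul x hx.1 y hy, by
    show x.2 * y.2 = 0
    rw [show x.2 = 0 from hx.2, zero_mul]⟩
  choose lift hlift using hlift
  have hwd : ∀ x ∈ R, (lift x.2).1.1 v = x.1 v := fun x hx => by
    have h := hKv ((lift x.2).1 - x) ⟨R.sub_mem (lift x.2).2 hx, by
      show (lift x.2).1.2 - x.2 = 0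
      rw [hlift, sub_self]⟩
    rwa [Prod.fst_sub, LinearMap.sub_apply, sub_eq_zero] at h
  let act : Module.End F E →ₗ[F] V :=
    { toFun := fun f => (lift f).1.1 v
      map_add' := fun f f' => by
        have := hwd ((lift f).1 + (lift f').1) (R.add_mem (lift f).2 (lift f').2)
        simpa [hlift] using this
      map_smul' := fun c f => by
        have := hwd (c • (lift f).1) (R.smul_mem c (lift f).2)
        simpa [hlift] using this }
  have hact : ∀ g f, act (ρ g * f) = r g (act f) := fun g f => by
    have := hwd ((r g, ρ g) * (lift f).1) (hmul _ (Submodule.subset_span ⟨g, rfl⟩) _ (lift f).2)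
    simpa [act, hlift] using this
  have hone : act 1 = v := by
    have := hwd 1 (Submodule.subset_span ⟨1, by simp⟩)
    simpa [act] using this
  -- a functional for which the rank one map is nonzero
  let bE := Module.finBasis F E
  obtain ⟨i, hi⟩ : ∃ i, act ((bE.coord i).smulRight (bE i)) ≠ 0 := by
    by_contra! h
    have hsum : (1 : Module.End F E) = ∑ i, (bE.coord i).smulRight (bE i) := by
      refine LinearMap.ext fun x => ?_
      simp [bE.sum_repr]
    rw [hsum, map_sum, Finset.sum_eq_zero fun i _ => h i] at hone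
    exact hv hone.symm
  let ι : E →ₗ[F] V := act.comp (LinearMap.smulRightₗ (bE.coord i))
  have hequiv : ∀ g x, ι (ρ g x) = r g (ι x) := fun g x => by
    show act ((bE.coord i).smulRight (ρ g x)) = r g (act ((bE.coord i).smulRight x))
    rw [← hact]
    exact congrArg act (LinearMap.ext fun z => by simp)
  refine ⟨ι, (injective_iff_map_eq_zero ι).2 fun x hx => ?_, hequiv⟩
  by_contra hx0
  -- every vector is the image of `x` under the span
  obtain ⟨φ, hφ⟩ := Module.Projective.exists_dual_eq_one F hx0
  have hall : ∀ f : Module.End F E, ι (f x) = 0 := by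
    intro f
    have hf : f ∈ Submodule.span F (Set.range ρ) := hspan ▸ Submodule.mem_top
    induction hf using Submodule.span_induction with
    | mem a ha =>
      obtain ⟨g, rfl⟩ := ha
      rw [hequiv, hx, map_zero]
    | zero => simp
    | add a c _ _ h1 h2 => rw [LinearMap.add_apply, map_add, h1, h2, add_zero]
    | smul c a _ h1 => rw [LinearMap.smul_apply, map_smul, h1, smul_zero]
  refine hi ?_
  have := hall (φ.smulRight (bE i))
  simpa [ι, hφ] using this

end Fermat.Agent.LLp.Embedding
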