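import Fermat.Agent.LLp.Embedding.Algebra
import Fermat.Agent.LowerSq.FixedVector
import Fermat.Agent.LowerSq.Step
import Fermat.Agent.CondLevel.Irreducible
import Fermat.Agent.S37
import Mathlib.Tactic.FinCases

/-!
# The embedding of `E[p]` in the Jacobian (Boston–Lenstra–Ribet)

If `W` is residually modular of level `N` and `E[p]` is irreducible then `E[p]` embeds, compatibly
with Galois, in the part of `J₀(N)[p]` killed by the congruence ideal.
-/

set_option autoImplicit false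

noncomputable section

open ModularCurve Fermat.Agent.TraceFn Fermat.Agent.CondLevel Fermat.Agent.LowerSq
open Module Matrix

namespace Fermat.Agent.LLp.Embedding

local notation "GQ" => AlgebraicClosure ℚ ≃ₐ[ℚ] AlgebraicClosure ℚ

variable {W : WeierstrassCurve ℤ} {p : ℕ} [Fact p.Prime]

theorem two_ne_zero_zmod (hp2 : p ≠ 2) : (2 : ZMod p) ≠ 0 := by
  intro h
  have hdvd : p ∣ 2 := (ZMod.natCast_eq_zero_iff 2 p).mp (by exact_mod_cast h)
  exact hp2 ((Nat.prime_dvd_prime_iff_eq Fact.out Nat.prime_two).mp hdvd)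

/-- An irreducible `E[p]` spans all endomorphisms. -/
theorem span_range_rhoTors (hΔ : W.Δ ≠ 0) (hp2 : p ≠ 2) (hirr : W.ModRepIsIrreducible p) :
    Submodule.span (ZMod p) (Set.range (rhoTors W p)) = ⊤ := by
  have := moduleFinite_tors W hΔ p
  have h2 := two_ne_zero_zmod (p := p) hp2
  have hc : rhoTors W p complexConjugation * rhoTors W p complexConjugation = 1 := by
    rw [← map_mul, complexConjugation_mul_self, map_one]
  obtain ⟨b, hb0, hb1⟩ := exists_basis_involution h2 (finrank_tors W hΔ p) hc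
    (det_rhoTors_involution W hΔ p hp2 complexConjugation_mul_self complexConjugation_ne_one)
  let e := LinearMap.toMatrixAlgEquiv b
  set A : Subalgebra (ZMod p) (Matrix (Fin 2) (Fin 2) (ZMod p)) :=
    (Algebra.adjoin (ZMod p) (Set.range (rhoTors W p))).map e.toAlgHom with hA
  have hmem : ∀ g, e (rhoTors W p g) ∈ A := fun g =>
    ⟨_, Algebra.subset_adjoin ⟨g, rfl⟩, rfl⟩
  have hMc : e (rhoTors W p complexConjugation) = !![1, 0; 0, -1] := by
    ext i j
    rw [LinearMap.toMatrixAlgEquiv_apply]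
    fin_cases i <;> fin_cases j <;> simp [hb0, hb1]
  have hdiag : ∀ i, Matrix.single i i (1 : ZMod p) ∈ A := by
    intro i
    have h := A.smul_mem (A.add_mem A.one_mem (A.smul_mem (hmem complexConjugation)
      (if i = 0 then 1 else -1 : ZMod p))) (2 : ZMod p)⁻¹
    convert h using 1
    rw [hMc]
    ext a c
    fin_cases i <;> fin_cases a <;> fin_cases c <;>
      simp [one_add_one_eq_two, inv_mul_cancel₀ h2]
  have hoff : ∀ i j : Fin 2, i ≠ j → ∃ g, e (rhoTors W p g) i j ≠ 0 := by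
    intro i j hij
    by_contra! hzero
    have hst : ∀ g, ∀ x ∈ Submodule.span (ZMod p) {b j},
        rhoTors W p g x ∈ Submodule.span (ZMod p) {b j} := by
      intro g x hx
      obtain ⟨s, rfl⟩ := Submodule.mem_span_singleton.mp hx
      rw [map_smul]
      refine Submodule.smul_mem _ s ?_
      have h0 : b.repr (rhoTors W p g (b j)) i = 0 := by
        rw [← LinearMap.toMatrixAlgEquiv_apply]; exact hzero g
      rw [← b.sum_repr (rhoTors W p g (b j)), Fin.sum_univ_two]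
      fin_cases i <;> fin_cases j <;>
        simp_all [Submodule.smul_mem, Submodule.mem_span_singleton_self]
    rcases hirr.2 _ hst with h | h
    · exact b.ne_zero j (Submodule.span_singleton_eq_bot.mp h)
    · have := congrArg (fun S : Submodule (ZMod p) (Tors W p) => finrank (ZMod p) S) h
      simp [finrank_span_singleton (b.ne_zero j), finrank_tors W hΔ p] at this
  have hsingle : ∀ i j, Matrix.single i j (1 : ZMod p) ∈ A := by
    intro i j
    rcases eq_or_ne i j with rfl | hij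
    · exact hdiag i
    · obtain ⟨g, hg⟩ := hoff i j hij
      have h := A.smul_mem (A.mul_mem (A.mul_mem (hdiag i) (hmem g)) (hdiag j))
        (e (rhoTors W p g) i j)⁻¹
      convert h using 1
      rw [Matrix.single_mul_mul_single, one_mul, mul_one, Matrix.smul_single, smul_eq_mul,
        inv_mul_cancel₀ hg]
  have htop : ∀ M, M ∈ A := fun M => by
    rw [Matrix.matrix_eq_sum_single M]
    refine A.sum_mem fun i _ => A.sum_mem fun j _ => ?_
    rw [show Matrix.single i j (M i j) = M i j • Matrix.single i j (1 : ZMod p) by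
      rw [Matrix.smul_single, smul_eq_mul, mul_one]]
    exact A.smul_mem (hsingle i j) _
  refine eq_top_iff.2 fun f _ => ?_
  obtain ⟨f', hf', he⟩ := htop (e f)
  obtain rfl : f' = f := e.injective he
  have hspan : (Algebra.adjoin (ZMod p) (Set.range (rhoTors W p))).toSubmodule =
      Submodule.span (ZMod p) (Set.range (rhoTors W p)) := by
    rw [Algebra.adjoin_eq_span, ← MonoidHom.coe_mrange, Submonoid.closure_eq]
  rw [← hspan]
  exact hf'

/-- A nonzero finite `p`-torsion group with a Galois action satisfying, at good Frobenius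
elements, the quadratic relation of an irreducible `E[p]` contains a copy of `E[p]`. -/
theorem exists_equivariant_of_quadratic {V : Type} [AddCommGroup V] [Finite V] [Nontrivial V]
    [Module (ZMod p) V] (φ : GQ →* AddMonoid.End V) (hΔ : W.Δ ≠ 0) (hp2 : p ≠ 2)
    (hirr : W.ModRepIsIrreducible p) (hfin : GaloisFactorsThroughFiniteLevel φ) {S : Finset ℕ}
    (hpS : p ∈ S) (hbad : ∀ ℓ : ℕ, ℓ.Prime → (ℓ : ℤ) ∣ W.Δ → ℓ ∈ S)
    (hfrob : ∀ ℓ : ℕ, ℓ.Prime → ℓ ∉ S →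
      ∀ B : ValuationSubring (AlgebraicClosure ℚ), B.LiesOverPrime ℓ →
        ∀ σ : GQ, B.IsFrobeniusAt σ ℓ →
          ∀ x : V, φ σ (φ σ x) = (W.apOfModel ℓ : ℤ) • φ σ x - ℓ • x) :
    ∃ ι : Tors W p →+ V, Function.Injective ι ∧
      ∀ (σ : GQ) (x : Tors W p), ι (rhoTors W p σ x) = φ σ (ι x) := by
  have hp : p.Prime := Fact.out
  have : Module.Finite (ZMod p) V := Module.Finite.of_finite
  have := moduleFinite_tors W hΔ p
  let χ : GQ →* Module.End (ZMod p) V := linearAction p φ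
  have hfl : GaloisFactorsThroughFiniteLevel χ := by
    obtain ⟨L, hL, h1⟩ := hfin
    exact ⟨L, hL, fun g hg => LinearMap.ext fun x => DFunLike.congr_fun (h1 g hg) x⟩
  let Q : Module.End (ZMod p) V → Module.End (ZMod p) (Tors W p) → Prop := fun a b =>
    a ^ 2 = LinearMap.trace (ZMod p) (Tors W p) b • a - LinearMap.det b • 1
  have hQ : ∀ g, Q (χ g) (rhoTors W p g) := by
    refine forall_of_frobenius_pow hfl (rhoTors_finiteLevel W hΔ hp.ne_zero) Q S ?_
    intro ℓ hℓ hℓS B hB σ hσ k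
    obtain ⟨ht, hd⟩ := frobenius_trace_det W hΔ hℓ (p := p) (fun h => hℓS (h ▸ hpS))
      (fun hdiv => hℓS (hbad ℓ hℓ hdiv)) hB hσ
    have h1 : χ σ ^ 2 = (W.apOfModel ℓ : ZMod p) • χ σ - (ℓ : ZMod p) • 1 := by
      refine LinearMap.ext fun x => ?_
      rw [sq, Module.End.mul_apply, LinearMap.sub_apply, LinearMap.smul_apply,
        LinearMap.smul_apply, Module.End.one_apply, Int.cast_smul_eq_zsmul,
        Nat.cast_smul_eq_nsmul]
      exact hfrob ℓ hℓ hℓS B hB σ hσ x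
    show χ (σ ^ k) ^ 2 = LinearMap.trace (ZMod p) (Tors W p) (rhoTors W p (σ ^ k)) • χ (σ ^ k) -
      LinearMap.det (rhoTors W p (σ ^ k)) • 1
    rw [map_pow χ, map_pow (rhoTors W p), map_pow LinearMap.det, pow_quadratic h1 k,
      trace_pow_eq (finrank_tors W hΔ p), ht, hd]
  have hr : ∀ g, LinearMap.det (rhoTors W p g) • χ g⁻¹ =
      LinearMap.trace (ZMod p) (Tors W p) (rhoTors W p g) • 1 - χ g := by
    intro g
    have h := congrArg (χ g⁻¹ * ·) (hQ g)
    simp only [sq, mul_sub, mul_smul_comm, mul_one, ← mul_assoc, ← map_mul, inv_mul_cancel,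
      map_one, one_mul] at h
    rw [h, sub_sub_cancel]
  obtain ⟨ι, hι, heq⟩ := exists_equivariant_injective (V := V) (two_ne_zero_zmod (p := p) hp2)
    (rhoTors W p) χ ((LinearMap.det).comp (rhoTors W p)) (LinearMap.trace (ZMod p) (Tors W p))
    hr (span_range_rhoTors hΔ hp2 hirr)
  exact ⟨ι.toAddMonoidHom, hι, heq⟩

variable {N : ℕ} [NeZero N] {S : Finset ℕ} (hNS : ∀ r : ℕ, r.Prime → r ∣ N → r ∈ S)
  {f : CuspForm (CongruenceSubgroup.Gamma0 N) 2} (hf : f.IsNormalizedEigenform)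
  (𝔪 : Ideal (integralClosure ℤ ℂ))

omit [Fact p.Prime] in
theorem smul_mem_mTor (g : GQ) {x : JZero N} (hx : x ∈ mTor hNS hf 𝔪 p) :
    g • x ∈ mTor hNS hf 𝔪 p := by
  refine ⟨?_, fun t ht => ?_⟩
  · have h := map_nsmul (DistribSMul.toAddMonoidHom (JZero N) g) p x
    rw [DistribSMul.toAddMonoidHom_apply, DistribSMul.toAddMonoidHom_apply, hx.1] at h
    exact h.symm.trans (smul_zero (A := JZero N) g)
  · exact (jHecke_galois N _ g x).trans
      ((congrArg (g • ·) (hx.2 t ht)).trans (smul_zero (A := JZero N) g))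

omit [Fact p.Prime] in
theorem hecke_eq_of_mem_mTor {ℓ : ℕ} (hℓ : ℓ.Prime) (hℓS : ℓ ∉ S) {a : ℤ}
    (hcong : eigenValue hNS hf (awayGen S ℓ) - (a : integralClosure ℤ ℂ) ∈ 𝔪)
    {x : JZero N} (hx : x ∈ mTor hNS hf 𝔪 p) :
    heckeOperatorBar N ⟨ℓ, hℓ⟩ x = a • x := by
  have h0 := hx.2 (awayGen S ℓ - ((a : ℤ) : AwayHecke S))
    (by rw [map_sub, map_intCast]; exact hcong)
  rw [map_sub, map_sub, awayIncl_awayGen hℓ hℓS, map_intCast, map_intCast] at h0
  rw [← sub_eq_zero, ← h0]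
  refine (congrArg₂ (fun a b : JZero N => a - b) ?_ rfl : _)
  exact ((jHecke_apply N _ _).trans (heckeModuleBar_heckeGen_smul
    (Fermat.Agent.HK.Corr.heckeOperatorsCommuteBar N) _ _)).symm

include hNS in
/-- **The embedding**, in terms of an eigenform and a maximal ideal. -/
theorem exists_embedding_mTor (hΔ : W.Δ ≠ 0) (hp2 : p ≠ 2) (hirr : W.ModRepIsIrreducible p)
    (hpS : p ∈ S) (hbad : ∀ ℓ : ℕ, ℓ.Prime → (ℓ : ℤ) ∣ W.Δ → ℓ ∈ S)
    (h𝔪 : 𝔪.IsMaximal) (hp𝔪 : (p : integralClosure ℤ ℂ) ∈ 𝔪)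
    (hcong : ∀ ℓ : ℕ, ℓ.Prime → ℓ ∉ S →
      eigenValue hNS hf (awayGen S ℓ) - ((W.apOfModel ℓ : ℤ) : integralClosure ℤ ℂ) ∈ 𝔪) :
    ∃ ι : Tors W p →+ JZero N, Function.Injective ι ∧
      (∀ (σ : GQ) (x : Tors W p), ι (rhoTors W p σ x) = σ • ι x) ∧
      ∀ x, ι x ∈ mTor hNS hf 𝔪 p := by
  have hp : p.Prime := Fact.out
  have hquad : GAL.TorsionQuadratic N p :=
    torsionQuadratic_of_spec37 Fermat.Agent.S37.result N p
  set M := mTor hNS hf 𝔪 p with hM
  obtain ⟨x₀, hx₀, hx₀'⟩ := nontrivial_mTor hNS hf 𝔪 h𝔪 hp𝔪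
  have : Nontrivial M := ⟨⟨⟨x₀, hx₀⟩, 0, fun h => hx₀' (congrArg Subtype.val h)⟩⟩
  have : Finite M := by
    refine (Set.Finite.subset (HK.finite_setOf_pow_smul_eq_zero N p 1) ?_).to_subtype
    exact fun x hx => by simpa using hx.1
  let _ : Module (ZMod p) M := AddCommGroup.zmodModule fun x => Subtype.ext x.2.1
  obtain ⟨ι, hι, heq⟩ := exists_equivariant_of_quadratic
    (subAction M fun g x hx => smul_mem_mTor hNS hf 𝔪 g hx) hΔ hp2 hirr (S := S) (by
      obtain ⟨L, hL, h1⟩ := HK.torsionFiniteLevel N p 1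
      exact ⟨L, hL, fun g hg => AddMonoidHom.ext fun x => Subtype.ext
        (h1 g hg x (by rw [pow_one]; exact x.2.1))⟩)
    hpS hbad (fun ℓ hℓ hℓS B hB σ hσ x => Subtype.ext (by
      have hℓp : ℓ ≠ p := fun h => hℓS (h ▸ hpS)
      have hℓNp : ¬ ℓ ∣ N * p := fun h => (hℓ.dvd_mul.mp h).elim (fun h' => hℓS (hNS ℓ hℓ h'))
        fun h' => hℓp ((Nat.prime_dvd_prime_iff_eq hℓ hp).mp h')
      have hq2 := hquad ℓ hℓ hℓNp B hB σ hσ (x : JZero N) ⟨1, by rw [pow_one]; exact x.2.1⟩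
      rw [hecke_eq_of_mem_mTor hNS hf 𝔪 hℓ hℓS (hcong ℓ hℓ hℓS)
        (smul_mem_mTor hNS hf 𝔪 σ x.2)] at hq2
      show σ • σ • (x : JZero N) = (W.apOfModel ℓ : ℤ) • (σ • (x : JZero N)) - ℓ • (x : JZero N)
      rw [← sub_eq_zero, ← hq2]
      abel))
  exact ⟨M.subtype.comp ι, Subtype.val_injective.comp hι,
    fun σ x => congrArg Subtype.val (heq σ x), fun x => (ι x).2⟩

/-- **The embedding** of `E[p]` in `J₀(N)[p]`, Galois equivariant, with `T_ℓ = a_ℓ`. -/
theorem exists_embedding (hΔ : W.Δ ≠ 0) (hp2 : p ≠ 2) (hirr : W.ModRepIsIrreducible p)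
    (hmod : W.IsResiduallyModularOfLevel p N) :
    ∃ ι : Tors W p →+ JZero N, Function.Injective ι ∧
      (∀ (σ : GQ) (x : Tors W p), ι (rhoTors W p σ x) = σ • ι x) ∧
      (∀ x, p • ι x = 0) ∧
      ∀ (ℓ : ℕ) (hℓ : ℓ.Prime), W.IsGoodPrimeFor ℓ → ¬ ℓ ∣ N → ℓ ≠ p →
        ∀ x, heckeOperatorBar N ⟨ℓ, hℓ⟩ (ι x) = (W.apOfModel ℓ : ℤ) • ι x := by
  obtain ⟨f, 𝔪, hf, h𝔪, hp𝔪, hc⟩ := hmod
  have hp : p.Prime := Fact.out
  set S : Finset ℕ := insert p (N.primeFactors ∪ W.Δ.natAbs.primeFactors) with hS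
  have hNS : ∀ r : ℕ, r.Prime → r ∣ N → r ∈ S := fun r hr hd =>
    Finset.mem_insert_of_mem (Finset.mem_union_left _
      (Nat.mem_primeFactors.mpr ⟨hr, hd, NeZero.ne N⟩))
  have hbad : ∀ ℓ : ℕ, ℓ.Prime → (ℓ : ℤ) ∣ W.Δ → ℓ ∈ S := fun ℓ hℓ hd =>
    Finset.mem_insert_of_mem (Finset.mem_union_right _
      (Nat.mem_primeFactors.mpr ⟨hℓ, Int.natCast_dvd.mp hd, Int.natAbs_ne_zero.mpr hΔ⟩))
  have hmem : ∀ ℓ : ℕ, ℓ.Prime → W.IsGoodPrimeFor ℓ → ¬ ℓ ∣ N → ℓ ≠ p → ℓ ∉ S := by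
    intro ℓ hℓ hg hN hne h
    simp only [hS, Finset.mem_insert, Finset.mem_union, Nat.mem_primeFactors] at h
    rcases h with h | ⟨-, h, -⟩ | ⟨-, h, -⟩
    · exact hne h
    · exact hN h
    · exact hg (Int.natCast_dvd.mpr h)
  have hcong : ∀ ℓ : ℕ, ℓ.Prime → ℓ ∉ S →
      eigenValue hNS hf (awayGen S ℓ) - ((W.apOfModel ℓ : ℤ) : integralClosure ℤ ℂ) ∈ 𝔪 := by
    intro ℓ hℓ hℓS
    obtain ⟨a, ha, hcl⟩ := hc ℓ hℓ (fun hd => hℓS (hbad ℓ hℓ hd))
      (fun hd => hℓS (hNS ℓ hℓ hd)) (fun he => hℓS (he ▸ Finset.mem_insert_self _ _))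
    have := Fermat.Agent.MF.IntStruct.moduleFinite_heckeAlgebra N 2 (∅ : Set ℕ)
    rw [eigenValue_awayGen hNS hf hℓ hℓS,
      show Eigen.intCoeff hf ℓ = a from Subtype.ext ((Eigen.coe_intCoeff hf ℓ).trans ha.symm)]
    exact hcl
  obtain ⟨ι, hι, hg, hm⟩ := exists_embedding_mTor hNS hf 𝔪 hΔ hp2 hirr
    (Finset.mem_insert_self _ _) hbad h𝔪 hp𝔪 hcong
  exact ⟨ι, hι, hg, fun x => (hm x).1, fun ℓ hℓ hgd hN hne x =>
    hecke_eq_of_mem_mTor hNS hf 𝔪 hℓ (hmem ℓ hℓ hgd hN hne)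
      (hcong ℓ hℓ (hmem ℓ hℓ hgd hN hne)) (hm x)⟩

end Fermat.Agent.LLp.Embedding
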